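import Mathlib
import Fermat.Agent.F4.Glob.Compl.NormCompatA

/-!
# F4 / Dict / PlacesB / Conj : embeddings of a number field into `PadicAlgCl q` with the same
prime are conjugate under `Gal(PadicAlgCl q / ℚ_q)`  (seat PLACES P2, helper90)

`F` a number field, `j j' : F →+* Ω = PadicAlgCl q`.

* `plb_exists_rat_approx` : a polynomial over `ℚ_q` is approximated, uniformly on a ball of `Ω`,
  by a polynomial over `ℚ`;
* `plb_aeval_minpoly_eq_zero` : if `‖j x‖ = ‖j' x‖` for all `x`, then `j' θ` is a root of the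
  minimal polynomial of `j θ` over `ℚ_q`;
* `plb_exists_algEquiv_of_norm_eq` : if `‖j x‖ = ‖j' x‖` for all `x`, there is
  `d ∈ Gal(Ω / ℚ_q)` with `d ∘ j = j'`;
* `plb_exists_algEquiv_of_primeOf_eq` : the same under `primeOf j = primeOf j'`.
-/

set_option autoImplicit false

open NumberField IsDedekindDomain Polynomial

namespace Fermat.Agent.F4G

variable {q : ℕ} [Fact q.Prime]

/-- A polynomial over `ℚ_q` is approximated, uniformly on the ball of radius `R` of `Ω`, by a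
polynomial over `ℚ`. -/
theorem plb_exists_rat_approx (P : ℚ_[q][X]) (R : ℝ) {ε : ℝ} (hε : 0 < ε) :
    ∃ h : ℚ[X], ∀ y : PadicAlgCl q, ‖y‖ ≤ R →
      ‖aeval y P - aeval y (h.map (algebraMap ℚ ℚ_[q]))‖ < ε := by
  induction P using Polynomial.induction_on' with
  | add P₁ P₂ h₁ h₂ =>
    obtain ⟨a₁, ha₁⟩ := h₁
    obtain ⟨a₂, ha₂⟩ := h₂
    refine ⟨a₁ + a₂, fun y hy => ?_⟩
    have e : aeval y (P₁ + P₂) - aeval y ((a₁ + a₂).map (algebraMap ℚ ℚ_[q])) =
        (aeval y P₁ - aeval y (a₁.map (algebraMap ℚ ℚ_[q]))) +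
          (aeval y P₂ - aeval y (a₂.map (algebraMap ℚ ℚ_[q]))) := by
      rw [Polynomial.map_add, map_add, map_add]
      ring
    rw [e]
    exact lt_of_le_of_lt (IsUltrametricDist.norm_add_le_max _ _) (max_lt (ha₁ y hy) (ha₂ y hy))
  | monomial n a =>
    have hR : 0 < |R| ^ n + 1 := by positivity
    obtain ⟨b, hb⟩ := Padic.rat_dense q a (div_pos hε hR)
    refine ⟨Polynomial.monomial n b, fun y hy => ?_⟩
    have e : aeval y (Polynomial.monomial n a) -
        aeval y ((Polynomial.monomial n b).map (algebraMap ℚ ℚ_[q])) =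
        algebraMap ℚ_[q] (PadicAlgCl q) (a - (b : ℚ_[q])) * y ^ n := by
      rw [Polynomial.map_monomial, Polynomial.aeval_monomial, Polynomial.aeval_monomial, map_sub]
      have : algebraMap ℚ ℚ_[q] b = (b : ℚ_[q]) := rfl
      rw [this]
      ring
    rw [e, norm_mul, norm_pow]
    have h1 : ‖algebraMap ℚ_[q] (PadicAlgCl q) (a - (b : ℚ_[q]))‖ = ‖a - (b : ℚ_[q])‖ :=
      PadicAlgCl.norm_extends q _
    rw [h1]
    have h2 : ‖y‖ ^ n ≤ |R| ^ n :=
      pow_le_pow_left₀ (norm_nonneg y) (hy.trans (le_abs_self R)) n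
    calc ‖a - (b : ℚ_[q])‖ * ‖y‖ ^ n ≤ ‖a - (b : ℚ_[q])‖ * (|R| ^ n + 1) :=
          mul_le_mul_of_nonneg_left (h2.trans (le_add_of_nonneg_right zero_le_one)) (norm_nonneg _)
      _ < ε / (|R| ^ n + 1) * (|R| ^ n + 1) := mul_lt_mul_of_pos_right hb hR
      _ = ε := div_mul_cancel₀ ε hR.ne'

section CharZero

variable {F : Type*} [Field F] [CharZero F]

/-- Evaluation of a rational polynomial commutes with a ring homomorphism into `Ω`. -/
lemma plb_map_aeval (j : F →+* PadicAlgCl q) (θ : F) (h : ℚ[X]) :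
    j (aeval θ h) = aeval (j θ) (h.map (algebraMap ℚ ℚ_[q])) := by
  rw [Polynomial.aeval_def, Polynomial.aeval_def, Polynomial.eval₂_map, Polynomial.hom_eval₂]
  congr 1
  exact Subsingleton.elim _ _

/-- If two embeddings induce the same norm on `F`, the image of `θ` under the second is a root
of the minimal polynomial over `ℚ_q` of its image under the first. -/
theorem plb_aeval_minpoly_eq_zero (j j' : F →+* PadicAlgCl q)
    (hn : ∀ x : F, ‖j x‖ = ‖j' x‖) (θ : F) :
    aeval (j' θ) (minpoly ℚ_[q] (j θ)) = 0 := by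
  by_contra hne
  have hc : 0 < ‖aeval (j' θ) (minpoly ℚ_[q] (j θ))‖ := norm_pos_iff.mpr hne
  obtain ⟨h, hh⟩ := plb_exists_rat_approx (minpoly ℚ_[q] (j θ)) ‖j θ‖ hc
  have h1 := hh (j θ) le_rfl
  have h2 := hh (j' θ) (hn θ).ge
  rw [minpoly.aeval, zero_sub, norm_neg, ← plb_map_aeval] at h1
  rw [← plb_map_aeval] at h2
  -- `‖j' x‖ = c`
  have h3 : ‖j' (aeval θ h)‖ = ‖aeval (j' θ) (minpoly ℚ_[q] (j θ))‖ := by
    have e : j' (aeval θ h) = aeval (j' θ) (minpoly ℚ_[q] (j θ)) +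
        -(aeval (j' θ) (minpoly ℚ_[q] (j θ)) - j' (aeval θ h)) := by ring
    rw [e]
    refine IsUltrametricDist.norm_add_eq_max_of_norm_ne_norm ?_ |>.trans ?_
    · rw [norm_neg]; exact h2.ne'
    · rw [norm_neg]; exact max_eq_left h2.le
  rw [hn, h3] at h1
  exact lt_irrefl _ h1

end CharZero

variable {F : Type*} [Field F] [NumberField F]

/-- **Conjugacy.**  Two embeddings of a number field into `PadicAlgCl q` which induce the same
norm are conjugate under `Gal(PadicAlgCl q / ℚ_q)`. -/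
theorem plb_exists_algEquiv_of_norm_eq (j j' : F →+* PadicAlgCl q)
    (hn : ∀ x : F, ‖j x‖ = ‖j' x‖) :
    ∃ d : PadicAlgCl q ≃ₐ[ℚ_[q]] PadicAlgCl q, ∀ x : F, d (j x) = j' x := by
  obtain ⟨θ, hθ⟩ := Field.exists_primitive_element ℚ F
  have hroot := plb_aeval_minpoly_eq_zero j j' hn θ
  have halg : IsAlgebraic ℚ_[q] (j θ) := Algebra.IsAlgebraic.isAlgebraic _
  obtain ⟨σ, hσ⟩ := minpoly.exists_algEquiv_of_root' halg hroot
  refine ⟨σ, fun x => ?_⟩
  -- `x` is a polynomial in `θ`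
  have hx : x ∈ Algebra.adjoin ℚ {θ} := by
    have hint : IsIntegral ℚ θ := Algebra.IsIntegral.isIntegral θ
    have h1 := IntermediateField.adjoin_simple_toSubalgebra_of_isAlgebraic hint.isAlgebraic
    have h2 : x ∈ (IntermediateField.adjoin ℚ {θ}).toSubalgebra := by
      rw [hθ]; trivial
    rwa [h1] at h2
  rw [Algebra.adjoin_singleton_eq_range_aeval] at hx
  obtain ⟨r, rfl⟩ := hx
  show σ (j (aeval θ r)) = j' (aeval θ r)
  rw [plb_map_aeval, plb_map_aeval, ← hσ]
  exact (Polynomial.aeval_algHom_apply (σ : PadicAlgCl q →ₐ[ℚ_[q]] PadicAlgCl q) (j θ) _).symm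

/-- **Conjugacy.**  Two embeddings of a number field into `PadicAlgCl q` which cut out the same
prime are conjugate under `Gal(PadicAlgCl q / ℚ_q)`. -/
theorem plb_exists_algEquiv_of_primeOf_eq (j j' : F →+* PadicAlgCl q)
    (h : primeOf j = primeOf j') :
    ∃ d : PadicAlgCl q ≃ₐ[ℚ_[q]] PadicAlgCl q, ∀ x : F, d (j x) = j' x :=
  plb_exists_algEquiv_of_norm_eq j j' (Compl.nc_norm_eq_of_primeOf_eq j j' h)

end Fermat.Agent.F4G
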