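import Mathlib
import Fermat.Agent.F4.Glob.Compl.NormCompatA
import Fermat.Agent.Lib.Frobenius.Basic
import Fermat.Prelude.Def_GaloisRep_CompletionBridge

/-!
# F4 / Dict / PlacesB / Trans : every prime of a number field `F ⊂ ℚ̄` over `q` is cut out by
`ι ∘ g`, `g ∈ Gal(ℚ̄/ℚ)`  (seat PLACES P1, helper90)

`ι = padicEmbedding q : ℚ̄ → PadicAlgCl q`.  The absolute Galois group acts transitively on the
primes of the ring `Zb` of all algebraic integers over `q`
(`Algebra.IsInvariant.exists_smul_of_under_eq_of_profinite`); a prime `v` of `F` over `q` is the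
restriction of a prime of `Zb` (going up), and `ι` cuts out a prime of `Zb` over `q`.

* `plbIdeal q` : the prime `{b ∈ Zb | ‖ι b‖ < 1}`;
* `plb_exists_gal` : for `v` a prime of `F` containing `q` there is `g` with
  `x ∈ v ↔ ‖ι (g x)‖ < 1` for all `x ∈ 𝓞 F`.
-/

set_option autoImplicit false
set_option linter.unusedSectionVars false
set_option linter.style.haveILetI false

open NumberField IsDedekindDomain
open scoped Pointwise

namespace Fermat.Agent.F4G

open Fermat.Agent.FrobExists

attribute [local instance] isAlgebraic_Qb isAlgClosure_Qb isInvariant_Zb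

variable (q : ℕ) [Fact q.Prime]

/-- Algebraic integers have norm `≤ 1` in `PadicAlgCl q`. -/
lemma plb_norm_le_one (b : Zb) : ‖padicEmbedding q (b : Qb)‖ ≤ 1 :=
  norm_le_one_of_isIntegral (map_isIntegral_int (padicEmbedding q).toRingHom b.2)

/-- The prime of the ring of all algebraic integers cut out by `ι = padicEmbedding q`. -/
def plbIdeal : Ideal Zb where
  carrier := {b | ‖padicEmbedding q (b : Qb)‖ < 1}
  add_mem' := by
    intro a b ha hb
    show ‖padicEmbedding q ((a : Qb) + (b : Qb))‖ < 1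
    rw [map_add]
    exact lt_of_le_of_lt (IsUltrametricDist.norm_add_le_max _ _) (max_lt ha hb)
  zero_mem' := by
    show ‖padicEmbedding q ((0 : Zb) : Qb)‖ < 1
    simp
  smul_mem' := by
    intro c x hx
    show ‖padicEmbedding q ((c : Qb) * (x : Qb))‖ < 1
    rw [map_mul, norm_mul]
    calc ‖padicEmbedding q (c : Qb)‖ * ‖padicEmbedding q (x : Qb)‖
        ≤ 1 * ‖padicEmbedding q (x : Qb)‖ :=
          mul_le_mul_of_nonneg_right (plb_norm_le_one q c) (norm_nonneg _)
      _ = ‖padicEmbedding q (x : Qb)‖ := one_mul _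
      _ < 1 := hx

lemma mem_plbIdeal {b : Zb} : b ∈ plbIdeal q ↔ ‖padicEmbedding q (b : Qb)‖ < 1 := Iff.rfl

instance plbIdeal_isPrime : (plbIdeal q).IsPrime := by
  refine ⟨?_, ?_⟩
  · intro h
    have : (1 : Zb) ∈ plbIdeal q := by rw [h]; trivial
    rw [mem_plbIdeal] at this
    simp at this
  · intro a b hab
    have hab' : ‖padicEmbedding q ((a : Qb) * (b : Qb))‖ < 1 := hab
    rw [map_mul, norm_mul] at hab'
    by_contra hcon
    simp only [not_or, mem_plbIdeal, not_lt] at hcon
    have ha : ‖padicEmbedding q (a : Qb)‖ = 1 := le_antisymm (plb_norm_le_one q a) hcon.1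
    have hb : ‖padicEmbedding q (b : Qb)‖ = 1 := le_antisymm (plb_norm_le_one q b) hcon.2
    rw [ha, hb, mul_one] at hab'
    exact lt_irrefl _ hab'

lemma natCast_mem_plbIdeal : ((q : ℕ) : Zb) ∈ plbIdeal q := by
  rw [mem_plbIdeal]
  have h1 : padicEmbedding q (((q : ℕ) : Zb) : Qb) = ((q : ℕ) : PadicAlgCl q) := by
    have : (((q : ℕ) : Zb) : Qb) = ((q : ℕ) : Qb) := by simp
    rw [this, map_natCast]
  rw [h1, Compl.nc_norm_natCast]
  exact inv_lt_one_of_one_lt₀ (by exact_mod_cast (Fact.out : q.Prime).one_lt)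

variable {q}

/-- A prime ideal of `Zb` containing `q` lies over `(q)`. -/
lemma plb_under_eq (Q : Ideal Zb) [Q.IsPrime] (hq : ((q : ℕ) : Zb) ∈ Q) :
    Q.under ℤ = Ideal.span {(q : ℤ)} := by
  have hq' : (q : ℤ) ∈ Q.under ℤ := by
    rw [Ideal.under_def, Ideal.mem_comap]
    simpa using hq
  have hmax : (Ideal.span {(q : ℤ)}).IsMaximal :=
    PrincipalIdealRing.isMaximal_of_irreducible
      (Nat.prime_iff_prime_int.mp (Fact.out : q.Prime)).irreducible
  have hle : Ideal.span {(q : ℤ)} ≤ Q.under ℤ := by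
    rw [Ideal.span_singleton_le_iff_mem]
    exact hq'
  have hne : Q.under ℤ ≠ ⊤ := (inferInstance : (Q.under ℤ).IsPrime).ne_top
  exact (hmax.eq_of_le hne hle).symm

/-- **Transitivity.**  Every prime of `Zb` containing `q` is conjugate to the prime cut out by
`ι`. -/
theorem plb_exists_smul_eq (Q : Ideal Zb) [Q.IsPrime] (hq : ((q : ℕ) : Zb) ∈ Q) :
    ∃ g : GQ, Q = g • plbIdeal q := by
  let _ : TopologicalSpace Zb := ⊥
  have : DiscreteTopology Zb := ⟨rfl⟩
  have := continuousSMul_Zb
  refine Algebra.IsInvariant.exists_smul_of_under_eq_of_profinite (A := ℤ) (G := GQ)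
    (plbIdeal q) Q ?_
  rw [plb_under_eq Q hq, plb_under_eq (plbIdeal q) (natCast_mem_plbIdeal q)]

variable (F : IntermediateField ℚ Qb) [NumberField F]

/-- The inclusion of the integers of `F` in the ring of all algebraic integers. -/
noncomputable def plbIncl : 𝓞 F →+* Zb where
  toFun x := ⟨((x : F) : Qb), map_isIntegral_int (algebraMap F Qb) (RingOfIntegers.isIntegral_coe x)⟩
  map_one' := Subtype.ext (by simp)
  map_mul' a b := Subtype.ext (by simp)
  map_zero' := Subtype.ext (by simp)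
  map_add' a b := Subtype.ext (by simp)

@[simp] lemma coe_plbIncl (x : 𝓞 F) : ((plbIncl F x : Zb) : Qb) = ((x : F) : Qb) := rfl

lemma plbIncl_injective : Function.Injective (plbIncl F) := by
  intro a b h
  have h1 := congrArg (fun z : Zb => (z : Qb)) h
  simp only [coe_plbIncl] at h1
  exact RingOfIntegers.ext (Subtype.ext h1)

/-- **P1 (existence).**  Every prime of `F` containing `q` is cut out by `ι ∘ g` for some
`g ∈ Gal(ℚ̄/ℚ)`. -/
theorem plb_exists_gal (v : HeightOneSpectrum (𝓞 F)) (hq : ((q : ℕ) : 𝓞 F) ∈ v.asIdeal) :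
    ∃ g : GQ, ∀ x : 𝓞 F, x ∈ v.asIdeal ↔ ‖padicEmbedding q (g ((x : F) : Qb))‖ < 1 := by
  letI : Algebra (𝓞 F) Zb := (plbIncl F).toAlgebra
  have hint : Algebra.IsIntegral (𝓞 F) Zb := by
    constructor
    intro b
    have hb : IsIntegral ℤ b := integralClosure.isIntegral b
    exact hb.tower_top
  have hker : RingHom.ker (algebraMap (𝓞 F) Zb) ≤ v.asIdeal := by
    intro x hx
    rw [RingHom.mem_ker] at hx
    have : x = 0 := plbIncl_injective F (hx.trans (map_zero _).symm)
    rw [this]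
    exact v.asIdeal.zero_mem
  obtain ⟨Q, hQ, hQv⟩ := Ideal.exists_ideal_over_prime_of_isIntegral_of_isDomain v.asIdeal hker
  have hqQ : ((q : ℕ) : Zb) ∈ Q := by
    have h1 : ((q : ℕ) : 𝓞 F) ∈ Q.comap (algebraMap (𝓞 F) Zb) := by rw [hQv]; exact hq
    rw [Ideal.mem_comap, map_natCast] at h1
    exact h1
  obtain ⟨g, hg⟩ := plb_exists_smul_eq Q hqQ
  refine ⟨g⁻¹, fun x => ?_⟩
  rw [← hQv, Ideal.mem_comap, hg, Ideal.mem_pointwise_smul_iff_inv_smul_mem, mem_plbIdeal]
  rfl

end Fermat.Agent.F4G
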